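import Fermat.Agent.RT.Two.Curve.Rho
import Fermat.Agent.RT.Two.Lift.Main

/-!
# The data of a twin curve

`curveInput` is the input on twin curves of minimal lifting at two; `exists_dihedral_data` gives the
quadratic field cut out by the sign of the two-torsion, as used by the seed.
-/

set_option autoImplicit false
set_option linter.style.haveILetI false

open WeierstrassCurve Fermat.Agent.Deform Fermat.Agent.Arith Fermat.Agent.EC.Rep

noncomputable section

namespace Fermat.Agent.RT.Two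

open IsLocalRing in
/-- **The data of a twin curve.** -/
theorem curveInput : CurveInput := fun E hE => by
  have hΔ : E.Δ ≠ 0 := hE.Δ_ne_zero
  refine ⟨{
    r₂ := Curve.r2 hΔ
    residual := Curve.isResidualTwo hΔ hE
    three_mod_four := hE.exists_three_mod_four
    frobenius := fun ℓ hℓ hg h2 A hA σ hσ => Curve.r2_frobenius hΔ hℓ hg h2 hA hσ
    rep := fun O _ _ _ _ _ _ h2 => ?_ }⟩
  obtain ⟨ι⟩ := GaloisReps.exists_padicHom (p := 2) O (by simpa using h2)
  refine ⟨Curve.rho hΔ ι h2, fun ℓ hℓ hg hℓ2 A hA σ hσ => ?_, fun v hv hd => ?_,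
    fun v hv hd A hA σ hσ => ?_, Curve.rho_isFlatAt hΔ ι h2 ‹_› hE.isGoodPrimeFor_two⟩
  · obtain ⟨h1, h2'⟩ := tateRep_trace_det_frobenius (p := 2) hΔ hℓ hg hℓ2 hA hσ
    rw [Curve.rho_trace, Curve.rho_det, Curve.trace_R2, Curve.det_R2, h1, h2', map_intCast,
      map_natCast]
    exact ⟨rfl, rfl⟩
  · exact Curve.rho_isUnramifiedAt hΔ ι h2 hv (fun hd' => hd (dvd_mul_of_dvd_right
      ((E.prime_dvd_conductorLevel_iff hΔ hv).2 hd') 2)) (by rintro rfl; exact hd (dvd_mul_right 2 _))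
  · obtain ⟨h1, h2'⟩ := Curve.R2_unipotent hΔ hv (fun e => Nat.not_even_iff_odd.2
      hE.odd_conductorLevel (even_iff_two_dvd.2 (e ▸ hd))) hE.semistable hA hσ
    rw [Curve.rho_trace, Curve.rho_det, h1, h2', map_ofNat, map_one]
    exact ⟨rfl, rfl⟩

namespace Curve

variable {E : WeierstrassCurve ℤ} (hΔ : E.Δ ≠ 0)

theorem cube_eq_one_of_trace : ∀ M : M2 (ZMod 2), M.det = 1 → M.trace = 1 →
    M ^ 3 = 1 ∧ M ≠ 1 := by decide

/-- The field of the square root of the discriminant. -/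
def discField : IntermediateField ℚ QBar := IntermediateField.adjoin ℚ {sqrtDisc hΔ}

theorem mem_fixingSubgroup_discField (σ : GQ) :
    σ ∈ (discField hΔ).fixingSubgroup ↔ r2 hΔ σ ^ 3 = 1 := by
  rw [show r2 hΔ σ ^ 3 = r2 hΔ σ * r2 hΔ σ * r2 hΔ σ by rw [pow_succ, pow_two],
    ← map_sqrtDisc_eq_iff, IntermediateField.mem_fixingSubgroup_iff]
  refine ⟨fun h => h _ (IntermediateField.mem_adjoin_simple_self ℚ _), fun h x hx => ?_⟩
  induction hx using IntermediateField.adjoin_induction with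
  | mem x hx => obtain rfl := hx; exact h
  | algebraMap x => exact σ.commutes x
  | add x y _ _ hx hy => rw [map_add, hx, hy]
  | inv x _ hx => rw [map_inv₀, hx]
  | mul x y _ _ hx hy => rw [map_mul, hx, hy]

theorem finrank_discField (hE : IsTwinCurve E) : Module.finrank ℚ (discField hΔ) = 2 := by
  have hi : IsIntegral ℚ (sqrtDisc hΔ) := (Algebra.IsAlgebraic.isAlgebraic _).isIntegral
  rw [discField, IntermediateField.adjoin.finrank hi]
  set P : Polynomial ℚ := Polynomial.X ^ 2 - Polynomial.C (E.Δ : ℚ)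
  have hP : Polynomial.aeval (sqrtDisc hΔ) P = 0 := by
    simp [P, sqrtDisc_sq]
  have hdeg : P.natDegree = 2 := Polynomial.natDegree_X_pow_sub_C
  refine le_antisymm (hdeg ▸ Polynomial.natDegree_le_of_dvd (minpoly.dvd ℚ _ hP)
    (Polynomial.X_pow_sub_C_ne_zero two_pos _)) ?_
  refine (minpoly.two_le_natDegree_iff hi).2 fun ⟨c, hc⟩ => ?_
  exact absurd (sqrtDisc_sq hΔ) (by
    rw [← hc, ← map_pow, ← map_intCast (algebraMap ℚ QBar)]
    intro h
    have h' := (algebraMap ℚ QBar).injective h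
    have : (E.Δ : ℚ) < 0 := by exact_mod_cast hE.neg
    nlinarith [sq_nonneg c])

/-- **The quadratic field of a twin curve.** -/
theorem exists_dihedral_data (hE : IsTwinCurve E) :
    ∃ (r : GQ →* M2 (ZMod 2)) (K : IntermediateField ℚ QBar),
      Select.IsResidualTwo r E.conductorLevel ∧
      FiniteDimensional ℚ K ∧ Normal ℚ K ∧ Module.finrank ℚ K = 2 ∧
      (∀ σ : GQ, σ ∈ K.fixingSubgroup ↔ r σ ^ 3 = 1) ∧
      (∃ σ : GQ, r σ ^ 3 = 1 ∧ r σ ≠ 1) ∧
      (∀ A : ValuationSubring QBar, A.LiesOverPrime 2 →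
        ∃ τ ∈ A.inertiaSubgroupIn ℚ, (r τ).trace = 1) ∧
      (∀ v : ℕ, v.Prime → v ≠ 2 → ∀ A : ValuationSubring QBar, A.LiesOverPrime v →
        ∀ τ ∈ A.inertiaSubgroupIn ℚ, r τ ^ 2 = 1) ∧
      ∀ ℓ : ℕ, ℓ.Prime → GoodOdd E ℓ → ∀ A : ValuationSubring QBar, A.LiesOverPrime ℓ →
        ∀ σ : GQ, A.IsFrobeniusAt σ ℓ →
          (r σ).trace = (parityAp E ℓ : ZMod 2) ∧ (r σ).det = (ℓ : ZMod 2) := by
  have hΔ : E.Δ ≠ 0 := hE.Δ_ne_zero
  have hfix := mem_fixingSubgroup_discField hΔ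
  have hf := finrank_discField hΔ hE
  have hfd : FiniteDimensional ℚ (discField hΔ) := Module.finite_of_finrank_eq_succ hf
  have hn : (discField hΔ).fixingSubgroup.Normal := ⟨fun n hn g => by
    rw [hfix] at hn ⊢
    rw [show r2 hΔ (g * n * g⁻¹) ^ 3 = r2 hΔ g * (r2 hΔ n ^ 3) * r2 hΔ g⁻¹ by
      rw [← map_pow, conj_pow, map_mul, map_mul, map_pow], hn, mul_one, ← map_mul,
      mul_inv_cancel, map_one]⟩
  have : IsGalois ℚ (discField hΔ) := (InfiniteGalois.normal_iff_isGalois (discField hΔ)).1 hn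
  refine ⟨r2 hΔ, discField hΔ, isResidualTwo hΔ hE, hfd, IsGalois.to_normal, hf, hfix, ?_,
    fun A hA => exists_inertia_trace_one hΔ hE hA, fun v hv hv2 A hA τ hτ => ?_,
    fun ℓ hℓ hG A hA σ hσ => ?_⟩
  · obtain ⟨τ, -, hτ⟩ := exists_inertia_trace_one hΔ hE
      (Fermat.Agent.CFT.Local.padicPlace_liesOverPrime 2)
    exact ⟨τ, cube_eq_one_of_trace _ (det_r2 hΔ τ) hτ⟩
  · exact r2_sq hΔ hv hv2 hE.semistable hA hτ
  · obtain ⟨h1, h2⟩ := r2_frobenius hΔ hℓ hG.1 hG.2 hA hσ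
    refine ⟨h1.trans ?_, h2.trans ?_⟩
    · exact (Lift.natAbs_cast_char_two (k := ZMod 2) (E.apOfModel ℓ)).symm
    · exact ((ZMod.natCast_eq_one_iff_odd).2 (hℓ.odd_of_ne_two hG.2)).symm

end Curve

end Fermat.Agent.RT.Two
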