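import Fermat.Agent.RT.Two.Top

/-!
# Numerics of a twin curve

The discriminant is `5` modulo `8`; the conductor level is odd, squarefree, greater than one and
has a prime divisor congruent to `3` modulo `4`.
-/

set_option autoImplicit false

namespace Fermat.Agent.RT.Two.Curve

variable {E : WeierstrassCurve ℤ}

theorem _root_.Fermat.Agent.RT.Two.IsTwinCurve.Δ_emod_eight (hE : IsTwinCurve E) :
    E.Δ % 8 = 5 := by
  obtain ⟨s, hs⟩ := hE.even_a₁
  obtain ⟨t, ht⟩ := hE.odd_a₃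
  obtain ⟨u, hu⟩ : ∃ u, E.b₂ = 4 * u := ⟨s ^ 2 + E.a₂, by
    simp only [WeierstrassCurve.b₂]; rw [hs]; ring⟩
  obtain ⟨v, hv⟩ : ∃ v, E.b₄ = 2 * v := ⟨E.a₄ + s * E.a₃, by
    simp only [WeierstrassCurve.b₄]; rw [hs]; ring⟩
  obtain ⟨w, hw⟩ : ∃ w, E.b₆ = 4 * w + 1 := ⟨t ^ 2 + t + E.a₆, by
    simp only [WeierstrassCurve.b₆]; rw [ht]; ring⟩
  have h : E.Δ = 8 * (-2 * u ^ 2 * E.b₈ - 8 * v ^ 3 - 54 * w ^ 2 - 27 * w - 4 +
      9 * u * v * (4 * w + 1)) + 5 := by
    simp only [WeierstrassCurve.Δ, hu, hv, hw]; ring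
  omega

theorem _root_.Fermat.Agent.RT.Two.IsTwinCurve.not_two_dvd_Δ (hE : IsTwinCurve E) :
    ¬ (2 : ℤ) ∣ E.Δ := by
  have := hE.Δ_emod_eight
  omega

theorem _root_.Fermat.Agent.RT.Two.IsTwinCurve.odd_conductorLevel (hE : IsTwinCurve E) :
    Odd E.conductorLevel := by
  rw [← Nat.not_even_iff_odd, even_iff_two_dvd,
    E.prime_dvd_conductorLevel_iff hE.Δ_ne_zero Nat.prime_two]
  exact hE.not_two_dvd_Δ

/-- A natural number congruent to `3` modulo `4` has such a prime divisor. -/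
theorem exists_prime_dvd_three (n : ℕ) (hn : n % 4 = 3) :
    ∃ p : ℕ, p.Prime ∧ p ∣ n ∧ p % 4 = 3 := by
  induction n using Nat.strong_induction_on with
  | _ n ih =>
    have hp := Nat.minFac_prime (show n ≠ 1 by omega)
    obtain ⟨m, hm⟩ := Nat.minFac_dvd n
    by_cases h : n.minFac % 4 = 3
    · exact ⟨_, hp, ⟨m, hm⟩, h⟩
    have hodd : n.minFac % 2 = 1 := by
      rcases Nat.mod_two_eq_zero_or_one n.minFac with h' | h'
      · have : 2 ∣ n := (Nat.dvd_of_mod_eq_zero h').trans ⟨m, hm⟩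
        omega
      · exact h'
    have h1 : n.minFac % 4 = 1 := by omega
    have hm3 : m % 4 = 3 := by rw [hm, Nat.mul_mod, h1] at hn; omega
    have hlt : m < n := by
      have := hp.two_le
      rcases Nat.eq_zero_or_pos m with rfl | hm0
      · omega
      · rw [hm]; exact lt_mul_of_one_lt_left hm0 hp.one_lt
    obtain ⟨p, hp', hpm, hp3⟩ := ih m hlt hm3
    exact ⟨p, hp', hpm.trans ⟨n.minFac, by rw [mul_comm]; exact hm⟩, hp3⟩

theorem _root_.Fermat.Agent.RT.Two.IsTwinCurve.exists_three_mod_four (hE : IsTwinCurve E) :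
    ∃ p : ℕ, p.Prime ∧ p ∣ E.conductorLevel ∧ p % 4 = 3 := by
  obtain ⟨p, hp, hpn, h3⟩ := exists_prime_dvd_three E.Δ.natAbs (by
    have := hE.Δ_emod_eight
    have := hE.neg
    omega)
  exact ⟨p, hp, (E.prime_dvd_conductorLevel_iff hE.Δ_ne_zero hp).2
    (Int.natCast_dvd.2 hpn), h3⟩

theorem _root_.Fermat.Agent.RT.Two.IsTwinCurve.one_lt_conductorLevel (hE : IsTwinCurve E) :
    1 < E.conductorLevel := by
  obtain ⟨p, hp, hpN, -⟩ := hE.exists_three_mod_four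
  exact hp.one_lt.trans_le (Nat.le_of_dvd E.conductorLevel_pos hpN)

theorem _root_.Fermat.Agent.RT.Two.IsTwinCurve.isGoodPrimeFor_two (hE : IsTwinCurve E) :
    E.IsGoodPrimeFor 2 := hE.not_two_dvd_Δ

end Fermat.Agent.RT.Two.Curve
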