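import Fermat.Agent.EC.Rep.Local.Unipotent
import Fermat.Agent.Deform.Matrix

/-!
# The two-torsion of a curve as three roots

The matrices on the two-adic Tate module reduce to the action on the three roots of the two-division
cubic; the product of their differences is a square root of the discriminant and carries the sign
character.
-/

set_option autoImplicit false
set_option linter.style.haveILetI false
set_option linter.unusedSectionVars false

open scoped WeierstrassCurve.Affine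
open WeierstrassCurve Fermat.Agent.Deform Fermat.Agent.Arith Fermat.Agent.EC.Rep

noncomputable section

namespace Fermat.Agent.RT.Two.Curve

variable {E : WeierstrassCurve ℤ} (hΔ : E.Δ ≠ 0)

/-- The standard basis of the Tate module. -/
def tateB : Module.Basis (Fin 2) ℤ_[2] (tateRep E 2 hΔ).V := Module.Basis.finTwoProd ℤ_[2]

/-- The matrices on the Tate module at two. -/
def R2 : GQ →* M2 ℤ_[2] := matOf (tateRep E 2 hΔ) (tateB hΔ)

/-- The matrices on the two-torsion. -/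
def r2 : GQ →* M2 (ZMod 2) := mapM PadicInt.toZMod (R2 hΔ)

/-- The point of a vector modulo two. -/
def pt (v : Fin 2 → ZMod 2) : PtQ E :=
  (tateBasis E 2 hΔ).red 1 (((v 0).val : ℤ_[2]), ((v 1).val : ℤ_[2]))

theorem mem_span_two_iff (x : ℤ_[2]) :
    x ∈ Ideal.span {((2 : ℕ) : ℤ_[2]) ^ 1} ↔ PadicInt.toZMod x = 0 := by
  rw [pow_one, ← PadicInt.maximalIdeal_eq_span_p, ← PadicInt.ker_toZMod, RingHom.mem_ker]

theorem tateRed_eq_pt (w : ℤ_[2] × ℤ_[2]) :
    tateRed hΔ 1 w = pt hΔ ![PadicInt.toZMod w.1, PadicInt.toZMod w.2] := by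
  refine (tateBasis E 2 hΔ).red_congr ?_ ?_ <;>
    · rw [mem_span_two_iff, map_sub, map_natCast, ZMod.natCast_zmod_val, sub_eq_zero]
      rfl

theorem pt_add (v w : Fin 2 → ZMod 2) : pt hΔ (v + w) = pt hΔ v + pt hΔ w := by
  rw [pt, pt, pt, ← map_add]
  refine (tateBasis E 2 hΔ).red_congr ?_ ?_ <;>
    · rw [mem_span_two_iff, map_sub, sub_eq_zero]
      simp only [Prod.fst_add, Prod.snd_add, map_add, map_natCast, ZMod.natCast_zmod_val,
        Pi.add_apply]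

theorem pt_eq_zero_iff (v : Fin 2 → ZMod 2) : pt hΔ v = 0 ↔ v = 0 := by
  rw [pt]
  refine ((tateBasis E 2 hΔ).red_eq_zero_iff 1 _).trans ?_
  rw [mem_span_two_iff, mem_span_two_iff, map_natCast, map_natCast, ZMod.natCast_zmod_val,
    ZMod.natCast_zmod_val]
  exact ⟨fun h => funext fun i => by fin_cases i <;> simp [h.1, h.2], fun h => by simp [h]⟩

theorem pt_add_self (v : Fin 2 → ZMod 2) : pt hΔ v + pt hΔ v = 0 := by
  rw [← pt_add, pt_eq_zero_iff]
  exact funext fun i => CharTwo.add_self_eq_zero (v i)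

theorem pt_injective : Function.Injective (pt hΔ) := fun v w h => by
  have h0 : pt hΔ (v + w) = 0 := by rw [pt_add, h, pt_add_self]
  rw [pt_eq_zero_iff] at h0
  exact funext fun i => CharTwo.add_eq_zero.1 (congrFun h0 i)

theorem smul_pt (σ : GQ) (v : Fin 2 → ZMod 2) :
    σ • pt hΔ v = pt hΔ ((r2 hΔ σ).mulVec v) := by
  refine ((red_tateRep (p := 2) hΔ σ 1 _).symm.trans (tateRed_eq_pt hΔ _)).trans (congrArg _ ?_)
  set w : (tateRep E 2 hΔ).V := (((v 0).val : ℤ_[2]), ((v 1).val : ℤ_[2]))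
  have hw : ∀ i, (tateB hΔ).repr ((tateRep E 2 hΔ).ρ σ w) i =
      R2 hΔ σ i 0 * ((v 0).val : ℤ_[2]) + R2 hΔ σ i 1 * ((v 1).val : ℤ_[2]) := by
    intro i
    have h := congrFun (LinearMap.toMatrix_mulVec_repr (tateB hΔ) (tateB hΔ)
      ((tateRep E 2 hΔ).ρ σ) w) i
    rw [← h]
    simp only [Matrix.mulVec, dotProduct, Fin.sum_univ_two]
    rfl
  have e0 : ((tateRep E 2 hΔ).ρ σ w).1 = (tateB hΔ).repr ((tateRep E 2 hΔ).ρ σ w) 0 := rfl
  have e1 : ((tateRep E 2 hΔ).ρ σ w).2 = (tateB hΔ).repr ((tateRep E 2 hΔ).ρ σ w) 1 := rfl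
  funext i
  fin_cases i
  · show PadicInt.toZMod ((tateRep E 2 hΔ).ρ σ w).1 = _
    rw [e0, hw]
    simp [Matrix.mulVec, dotProduct, Fin.sum_univ_two, r2, mapM_apply]
  · show PadicInt.toZMod ((tateRep E 2 hΔ).ρ σ w).2 = _
    rw [e1, hw]
    simp [Matrix.mulVec, dotProduct, Fin.sum_univ_two, r2, mapM_apply]

/-- The abscissa, zero at the origin. -/
def xc : PtQ E → QBar
  | .zero => 0
  | .some x _ _ => x

theorem xc_smul (σ : GQ) (P : PtQ E) : xc (σ • P) = σ (xc P) := by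
  cases P with
  | zero => exact (map_zero σ).symm
  | some x y h => rw [Affine.Point.algEquiv_smul_def, Affine.Point.map_some]; rfl

theorem exists_root_of_two_torsion {P : PtQ E} (hP : P + P = 0) (h0 : P ≠ 0) :
    ∃ x y, ∃ h, P = Affine.Point.some x y h ∧
      2 * y + (E.a₁ : QBar) * x + (E.a₃ : QBar) = 0 ∧
      4 * x ^ 3 + (E.b₂ : QBar) * x ^ 2 + 2 * (E.b₄ : QBar) * x + (E.b₆ : QBar) = 0 := by
  cases P with
  | zero => exact absurd rfl h0
  | some x y h =>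
    refine ⟨x, y, h, rfl, ?_⟩
    have hneg := eq_neg_of_add_eq_zero_left hP
    rw [Affine.Point.neg_some, Affine.Point.some.injEq] at hneg
    have hy := hneg.2
    simp [Affine.negY, WeierstrassCurve.baseChange] at hy
    have hy' : 2 * y + (E.a₁ : QBar) * x + (E.a₃ : QBar) = 0 := by linear_combination hy
    refine ⟨hy', ?_⟩
    have heq := (Affine.equation_iff x y).1 h.1
    simp [WeierstrassCurve.baseChange] at heq
    simp only [WeierstrassCurve.b₂, WeierstrassCurve.b₄, WeierstrassCurve.b₆]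
    push_cast
    linear_combination (-4 : QBar) * heq + (2 * y + (E.a₁ : QBar) * x + (E.a₃ : QBar)) * hy'

/-- The abscissa of a vector. -/
def root (v : Fin 2 → ZMod 2) : QBar := xc (pt hΔ v)

theorem map_root (σ : GQ) (v : Fin 2 → ZMod 2) :
    σ (root hΔ v) = root hΔ ((r2 hΔ σ).mulVec v) := by
  rw [root, root, ← smul_pt, xc_smul]

theorem root_spec {v : Fin 2 → ZMod 2} (hv : v ≠ 0) :
    4 * root hΔ v ^ 3 + (E.b₂ : QBar) * root hΔ v ^ 2 + 2 * (E.b₄ : QBar) * root hΔ v +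
      (E.b₆ : QBar) = 0 := by
  obtain ⟨x, y, h, e, -, e2⟩ := exists_root_of_two_torsion (pt_add_self hΔ v)
    (mt (pt_eq_zero_iff hΔ v).1 hv)
  rw [root, e]
  exact e2

theorem root_inj {v w : Fin 2 → ZMod 2} (hv : v ≠ 0) (hw : w ≠ 0)
    (h : root hΔ v = root hΔ w) : v = w := by
  obtain ⟨x, y, hn, e, e1, -⟩ := exists_root_of_two_torsion (pt_add_self hΔ v)
    (mt (pt_eq_zero_iff hΔ v).1 hv)
  obtain ⟨x', y', hn', e', e1', -⟩ := exists_root_of_two_torsion (pt_add_self hΔ w)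
    (mt (pt_eq_zero_iff hΔ w).1 hw)
  refine pt_injective hΔ ?_
  rw [root, root, e, e'] at h
  have hx : x = x' := h
  subst hx
  have hy : y = y' := mul_left_cancel₀ (two_ne_zero (α := QBar)) (by linear_combination e1 - e1')
  subst hy
  rw [e, e']

theorem det_r2 (σ : GQ) : (r2 hΔ σ).det = 1 :=
  Fin.eq_one_of_ne_zero _ (fun hd => by
    have h : r2 hΔ σ * r2 hΔ σ⁻¹ = 1 := by rw [← map_mul, mul_inv_cancel, map_one]
    have := congrArg Matrix.det h
    rw [Matrix.det_mul, hd, Matrix.det_one] at this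
    exact zero_ne_one ((zero_mul _).symm.trans this))

/-- A square root of the discriminant. -/
def sqrtDisc : QBar :=
  4 * ((root hΔ ![1, 0] - root hΔ ![0, 1]) * (root hΔ ![1, 0] - root hΔ ![1, 1]) *
    (root hΔ ![0, 1] - root hΔ ![1, 1]))

/-- The coefficients of a cubic from three distinct roots. -/
theorem vieta {K : Type} [Field K] {x y z b c d : K} (hxy : x ≠ y) (hxz : x ≠ z) (hyz : y ≠ z)
    (hx : 4 * x ^ 3 + b * x ^ 2 + 2 * c * x + d = 0)
    (hy : 4 * y ^ 3 + b * y ^ 2 + 2 * c * y + d = 0)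
    (hz : 4 * z ^ 3 + b * z ^ 2 + 2 * c * z + d = 0) :
    b = -4 * (x + y + z) ∧ 2 * c = 4 * (x * y + x * z + y * z) ∧ d = -4 * (x * y * z) := by
  have e1 : 4 * (x ^ 2 + x * y + y ^ 2) + b * (x + y) + 2 * c = 0 :=
    (mul_eq_zero.1 (show (x - y) * (4 * (x ^ 2 + x * y + y ^ 2) + b * (x + y) + 2 * c) = 0 by
      linear_combination hx - hy)).resolve_left (sub_ne_zero.2 hxy)
  have e2 : 4 * (x ^ 2 + x * z + z ^ 2) + b * (x + z) + 2 * c = 0 :=
    (mul_eq_zero.1 (show (x - z) * (4 * (x ^ 2 + x * z + z ^ 2) + b * (x + z) + 2 * c) = 0 by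
      linear_combination hx - hz)).resolve_left (sub_ne_zero.2 hxz)
  have e3 : 4 * (x + y + z) + b = 0 :=
    (mul_eq_zero.1 (show (y - z) * (4 * (x + y + z) + b) = 0 by
      linear_combination e1 - e2)).resolve_left (sub_ne_zero.2 hyz)
  refine ⟨by linear_combination e3, by linear_combination e1 - (x + y) * e3, ?_⟩
  linear_combination hx - x * e1 + x * y * e3

theorem sqrtDisc_sq : sqrtDisc hΔ ^ 2 = (E.Δ : QBar) := by
  have h1 : (![1, 0] : Fin 2 → ZMod 2) ≠ 0 := by decide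
  have h2 : (![0, 1] : Fin 2 → ZMod 2) ≠ 0 := by decide
  have h3 : (![1, 1] : Fin 2 → ZMod 2) ≠ 0 := by decide
  obtain ⟨eb, ec, ed⟩ := vieta (fun h => absurd (root_inj hΔ h1 h2 h) (by decide))
    (fun h => absurd (root_inj hΔ h1 h3 h) (by decide))
    (fun h => absurd (root_inj hΔ h2 h3 h) (by decide))
    (root_spec hΔ h1) (root_spec hΔ h2) (root_spec hΔ h3)
  have hb8 : 4 * (E.b₈ : QBar) = (E.b₂ : QBar) * E.b₆ - (E.b₄ : QBar) ^ 2 := by
    exact_mod_cast E.b_relation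
  have hc : (E.b₄ : QBar) = 2 * (root hΔ ![1, 0] * root hΔ ![0, 1] +
      root hΔ ![1, 0] * root hΔ ![1, 1] + root hΔ ![0, 1] * root hΔ ![1, 1]) :=
    mul_left_cancel₀ (two_ne_zero (α := QBar)) (by linear_combination ec)
  rw [eb, hc, ed] at hb8
  have hΔeq : (E.Δ : QBar) = -(E.b₂ : QBar) ^ 2 * E.b₈ - 8 * (E.b₄ : QBar) ^ 3 -
      27 * (E.b₆ : QBar) ^ 2 + 9 * E.b₂ * E.b₄ * E.b₆ := by
    simp only [WeierstrassCurve.Δ]; push_cast; ring
  refine mul_left_cancel₀ (show (4 : QBar) ≠ 0 by norm_num) ?_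
  rw [hΔeq, eb, hc, ed, sqrtDisc]
  linear_combination (16 * (root hΔ ![1, 0] + root hΔ ![0, 1] + root hΔ ![1, 1]) ^ 2) * hb8

theorem perm_cases : ∀ M : M2 (ZMod 2), M.det = 1 →
    (M * M * M = 1 ∧
      ((M.mulVec ![1, 0] = ![1, 0] ∧ M.mulVec ![0, 1] = ![0, 1] ∧ M.mulVec ![1, 1] = ![1, 1]) ∨
       (M.mulVec ![1, 0] = ![0, 1] ∧ M.mulVec ![0, 1] = ![1, 1] ∧ M.mulVec ![1, 1] = ![1, 0]) ∨
       (M.mulVec ![1, 0] = ![1, 1] ∧ M.mulVec ![0, 1] = ![1, 0] ∧ M.mulVec ![1, 1] = ![0, 1]))) ∨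
    (M * M * M ≠ 1 ∧
      ((M.mulVec ![1, 0] = ![0, 1] ∧ M.mulVec ![0, 1] = ![1, 0] ∧ M.mulVec ![1, 1] = ![1, 1]) ∨
       (M.mulVec ![1, 0] = ![1, 0] ∧ M.mulVec ![0, 1] = ![1, 1] ∧ M.mulVec ![1, 1] = ![0, 1]) ∨
       (M.mulVec ![1, 0] = ![1, 1] ∧ M.mulVec ![0, 1] = ![0, 1] ∧ M.mulVec ![1, 1] = ![1, 0]))) := by
  decide

/-- The sign character. -/
theorem map_sqrtDisc_eq_iff (σ : GQ) :
    σ (sqrtDisc hΔ) = sqrtDisc hΔ ↔ r2 hΔ σ * r2 hΔ σ * r2 hΔ σ = 1 := by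
  have hd0 : sqrtDisc hΔ ≠ 0 := fun h => by
    have := sqrtDisc_sq hΔ
    rw [h, zero_pow two_ne_zero] at this
    exact hΔ (by exact_mod_cast this.symm)
  have hval : σ (sqrtDisc hΔ) =
      4 * ((root hΔ ((r2 hΔ σ).mulVec ![1, 0]) - root hΔ ((r2 hΔ σ).mulVec ![0, 1])) *
        (root hΔ ((r2 hΔ σ).mulVec ![1, 0]) - root hΔ ((r2 hΔ σ).mulVec ![1, 1])) *
        (root hΔ ((r2 hΔ σ).mulVec ![0, 1]) - root hΔ ((r2 hΔ σ).mulVec ![1, 1]))) := by
    simp only [sqrtDisc, map_mul, map_sub, map_ofNat, map_root]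
  rcases perm_cases _ (det_r2 hΔ σ) with ⟨h, hp⟩ | ⟨h, hp⟩
  · refine ⟨fun _ => h, fun _ => ?_⟩
    rw [hval]
    rcases hp with ⟨e1, e2, e3⟩ | ⟨e1, e2, e3⟩ | ⟨e1, e2, e3⟩ <;>
      rw [e1, e2, e3, sqrtDisc] <;> ring
  · refine ⟨fun he => ?_, fun h' => absurd h' h⟩
    have hneg : σ (sqrtDisc hΔ) = -sqrtDisc hΔ := by
      rw [hval]
      rcases hp with ⟨e1, e2, e3⟩ | ⟨e1, e2, e3⟩ | ⟨e1, e2, e3⟩ <;>
        rw [e1, e2, e3, sqrtDisc] <;> ring
    rw [hneg] at he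
    exact absurd (neg_eq_self.1 he) hd0

theorem eq_one_of_fixes : ∀ M : M2 (ZMod 2),
    M.mulVec ![1, 0] = ![1, 0] → M.mulVec ![0, 1] = ![0, 1] → M = 1 := by decide

/-- A matrix is one exactly when the roots are fixed. -/
theorem r2_eq_one_iff (σ : GQ) : r2 hΔ σ = 1 ↔ ∀ v, σ (root hΔ v) = root hΔ v := by
  refine ⟨fun h v => by rw [map_root, h, Matrix.one_mulVec], fun h => ?_⟩
  have hinv : ∀ v : Fin 2 → ZMod 2, v ≠ 0 → (r2 hΔ σ).mulVec v ≠ 0 := fun v hv h0 => hv (by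
    have e : r2 hΔ σ⁻¹ * r2 hΔ σ = 1 := by rw [← map_mul, inv_mul_cancel, map_one]
    have := congrArg ((r2 hΔ σ⁻¹).mulVec) h0
    rwa [Matrix.mulVec_mulVec, e, Matrix.one_mulVec, Matrix.mulVec_zero] at this)
  have hfix : ∀ v : Fin 2 → ZMod 2, v ≠ 0 → (r2 hΔ σ).mulVec v = v := fun v hv =>
    root_inj hΔ (hinv v hv) hv (by rw [← map_root]; exact h v)
  exact eq_one_of_fixes _ (hfix _ (by decide)) (hfix _ (by decide))

end Fermat.Agent.RT.Two.Curve
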