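import Fermat.Agent.RT.Two.Curve.Numerics
import Fermat.Agent.RT.Two.Curve.Roots
import Fermat.Agent.RT.Two.Select.Space
import Fermat.Agent.EC.Rep.Ramification
import Fermat.Agent.EC.Rep.Involution

/-!
# The two-torsion of a twin curve

The matrices on the two-torsion of a twin curve: unramified away from twice the conductor level,
of order two on inertia at the primes of the level and supersingular at two, with image all of
`GL₂(𝔽₂)`.
-/

set_option autoImplicit false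
set_option linter.style.haveILetI false

open WeierstrassCurve Polynomial Fermat.Agent.Deform Fermat.Agent.Arith Fermat.Agent.EC.Rep
open Fermat.Agent.CFT.Flat
open scoped Pointwise

noncomputable section

namespace Fermat.Agent.RT.Two.Curve

variable {E : WeierstrassCurve ℤ} (hΔ : E.Δ ≠ 0)

theorem trace_R2 (σ : GQ) : (R2 hΔ σ).trace = (tateRep E 2 hΔ).trace σ :=
  (LinearMap.trace_eq_matrix_trace ℤ_[2] (tateB hΔ) _).symm

theorem det_R2 (σ : GQ) : (R2 hΔ σ).det = LinearMap.det ((tateRep E 2 hΔ).ρ σ) :=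
  LinearMap.det_toMatrix (tateB hΔ) _

theorem trace_r2 (σ : GQ) : (r2 hΔ σ).trace = PadicInt.toZMod (R2 hΔ σ).trace :=
  (AddMonoidHom.map_trace (PadicInt.toZMod (p := 2)).toAddMonoidHom (R2 hΔ σ)).symm

theorem r2_finite : GaloisFactorsThroughFiniteLevel (r2 hΔ) := by
  obtain ⟨L, hL, h⟩ := isCont_matOf (tateRep E 2 hΔ) (tateB hΔ) 1
  refine ⟨L, hL, fun σ hσ => ?_⟩
  ext i j
  have := h σ hσ i j
  rw [pow_one, ← PadicInt.ker_toZMod, RingHom.mem_ker, map_sub, sub_eq_zero] at this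
  refine this.trans ?_
  show PadicInt.toZMod ((1 : M2 ℤ_[2]) i j) = (1 : M2 (ZMod 2)) i j
  by_cases hij : i = j <;> simp [Matrix.one_apply, hij]

theorem R2_eq_one_of_unramified {v : ℕ} (hv : v.Prime) (hgood : E.IsGoodPrimeFor v) (hv2 : v ≠ 2)
    {A : ValuationSubring QBar} (hA : A.LiesOverPrime v) {σ : GQ}
    (hσ : σ ∈ A.inertiaSubgroupIn ℚ) : R2 hΔ σ = 1 := by
  show LinearMap.toMatrixAlgEquiv (tateB hΔ) ((tateRep E 2 hΔ).ρ σ) = 1
  rw [isUnramifiedAt_tateRep hΔ hv hgood hv2 A hA σ hσ, map_one]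

theorem r2_frobenius {ℓ : ℕ} (hℓ : ℓ.Prime) (hgood : E.IsGoodPrimeFor ℓ) (h2 : ℓ ≠ 2)
    {A : ValuationSubring QBar} (hA : A.LiesOverPrime ℓ) {σ : GQ} (hσ : A.IsFrobeniusAt σ ℓ) :
    (r2 hΔ σ).trace = (E.apOfModel ℓ : ZMod 2) ∧ (r2 hΔ σ).det = 1 := by
  refine ⟨?_, det_r2 hΔ σ⟩
  rw [trace_r2, trace_R2, (tateRep_trace_det_frobenius hΔ hℓ hgood h2 hA hσ).1, map_intCast]

theorem R2_unipotent {v : ℕ} (hv : v.Prime) (hv2 : v ≠ 2) (hss : E.IsSemistableModel)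
    {A : ValuationSubring QBar} (hA : A.LiesOverPrime v) {σ : GQ}
    (hσ : σ ∈ A.inertiaSubgroupIn ℚ) : (R2 hΔ σ).trace = 2 ∧ (R2 hΔ σ).det = 1 := by
  have h := isUnipotentOnInertiaAt_tateRep hΔ hv hv2 (fun h => hss v hv h.2 h.1) A hA σ hσ
  rw [← LinearMap.charpoly_toMatrix _ (tateB hΔ), Matrix.charpoly_fin_two] at h
  have e1 := congrArg (fun P : ℤ_[2][X] => P.coeff 1) h
  have e0 := congrArg (fun P : ℤ_[2][X] => P.coeff 0) h
  simp [sub_sq, Polynomial.coeff_X_pow, Polynomial.coeff_one] at e1 e0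
  exact ⟨e1, (det_R2 hΔ σ).trans e0⟩

set_option synthInstance.maxSize 2000 in
set_option synthInstance.maxHeartbeats 400000 in
theorem sq_eq_one_of_trace : ∀ M : M2 (ZMod 2), M.det = 1 → M.trace = 0 → M ^ 2 = 1 := by decide

set_option synthInstance.maxSize 2000 in
set_option synthInstance.maxHeartbeats 400000 in
theorem exists_trace_one : ∀ A B : M2 (ZMod 2), A.det = 1 → B.det = 1 → A ≠ 1 → B ≠ 1 → A ≠ B →
    A.trace = 1 ∨ B.trace = 1 ∨ (A * B).trace = 1 := by decide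

set_option synthInstance.maxSize 2000 in
set_option synthInstance.maxHeartbeats 400000 in
theorem transposition_of_cube : ∀ M : M2 (ZMod 2), M.det = 1 → M * M * M ≠ 1 →
    M.trace = 0 ∧ M ≠ 1 := by decide

theorem r2_sq {v : ℕ} (hv : v.Prime) (hv2 : v ≠ 2) (hss : E.IsSemistableModel)
    {A : ValuationSubring QBar} (hA : A.LiesOverPrime v) {σ : GQ}
    (hσ : σ ∈ A.inertiaSubgroupIn ℚ) : r2 hΔ σ ^ 2 = 1 := by
  refine sq_eq_one_of_trace _ (det_r2 hΔ σ) ?_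
  rw [trace_r2, (R2_unipotent hΔ hv hv2 hss hA hσ).1, map_ofNat]
  rfl

theorem map_sqrtDisc_of_r2 {σ : GQ} (h : r2 hΔ σ = 1) : σ (sqrtDisc hΔ) = sqrtDisc hΔ :=
  (map_sqrtDisc_eq_iff hΔ σ).2 (by rw [h, one_mul, one_mul])

theorem valuation_intCast_one {v : ℕ} (hv : v.Prime) {A : ValuationSubring QBar}
    (hA : A.LiesOverPrime v) {m : ℤ} (hm : ¬ (v : ℤ) ∣ m) : A.valuation (m : QBar) = 1 :=
  le_antisymm ((A.valuation_le_one_iff _).mpr (intCast_mem A m))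
    (not_lt.mp fun h => hm ((intCast_mem_nonunits_iff hA hv m).mp h))

theorem ramified (hE : IsTwinCurve E) {v : ℕ} (hv : v.Prime) (hvΔ : (v : ℤ) ∣ E.Δ)
    {A : ValuationSubring QBar} (hA : A.LiesOverPrime v) :
    ∃ τ ∈ A.inertiaSubgroupIn ℚ, r2 hΔ τ ≠ 1 := by
  obtain ⟨L, hL, hLr⟩ := r2_finite hΔ
  obtain ⟨m, hm⟩ := hE.odd_exponent v hv hvΔ
  have : Fact v.Prime := ⟨hv⟩
  obtain ⟨c, hc⟩ : (v : ℤ) ^ padicValInt v E.Δ ∣ E.Δ := padicValInt_dvd _
  have hvc : ¬ (v : ℤ) ∣ c := by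
    rintro ⟨d, rfl⟩
    have h' : (v : ℤ) ^ (padicValInt v E.Δ + 1) ∣ E.Δ := ⟨d, by rw [pow_succ, mul_assoc, ← hc]⟩
    rw [padicValInt_dvd_iff] at h'
    exact h'.elim hΔ (by omega)
  rw [hm] at hc
  have hv0 : A.valuation (v : QBar) ≠ 0 :=
    (A.valuation).ne_zero_iff.mpr (Nat.cast_ne_zero.mpr hv.ne_zero)
  have hval : A.valuation (((v : QBar) ^ m / sqrtDisc hΔ) ^ 2 * v) = 1 := by
    rw [div_pow, sqrtDisc_sq, hc, Int.cast_mul, Int.cast_pow, Int.cast_natCast, map_mul, map_div₀,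
      map_mul, valuation_intCast_one hv hA hvc, mul_one, map_pow, map_pow, map_pow, ← pow_mul,
      div_mul_eq_mul_div, ← pow_succ, mul_comm m 2, div_self (pow_ne_zero _ hv0)]
  have h := le_natCard_image_inertia (r2 hΔ) L hLr hv hA
    (y := (v : QBar) ^ m / sqrtDisc hΔ) (fun σ hσ => by
      rw [map_div₀, map_pow, map_natCast, map_sqrtDisc_of_r2 hΔ hσ]) hval
  by_contra hne
  push Not at hne
  have hsub : r2 hΔ '' (A.inertiaSubgroupIn ℚ : Set GQ) ⊆ {1} := by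
    rintro _ ⟨τ, hτ, rfl⟩
    exact hne τ hτ
  have := h.trans (Nat.card_mono (Set.finite_singleton _) hsub)
  simp at this

theorem exists_inertia_trace_one (hE : IsTwinCurve E) {A : ValuationSubring QBar}
    (hA : A.LiesOverPrime 2) : ∃ τ ∈ A.inertiaSubgroupIn ℚ, (r2 hΔ τ).trace = 1 := by
  obtain ⟨L, hL, hLr⟩ := r2_finite hΔ
  have he : (![1, 0] : Fin 2 → ZMod 2) ≠ 0 := by decide
  set x := root hΔ ![1, 0]
  have hx : 4 * x ^ 3 + (E.b₂ : QBar) * x ^ 2 + 2 * (E.b₄ : QBar) * x + (E.b₆ : QBar) = 0 :=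
    root_spec hΔ he
  obtain ⟨s, hs⟩ := hE.even_a₁
  obtain ⟨t, ht⟩ := hE.odd_a₃
  obtain ⟨a, ha⟩ : ∃ a, E.b₂ = 4 * a := ⟨s ^ 2 + E.a₂, by
    simp only [WeierstrassCurve.b₂]; rw [hs]; ring⟩
  obtain ⟨b, hb⟩ : ∃ b, E.b₄ = 2 * b := ⟨E.a₄ + s * E.a₃, by
    simp only [WeierstrassCurve.b₄]; rw [hs]; ring⟩
  obtain ⟨c, hc⟩ : ∃ c, E.b₆ = 4 * c + 1 := ⟨t ^ 2 + t + E.a₆, by
    simp only [WeierstrassCurve.b₆]; rw [ht]; ring⟩
  rw [ha, hb, hc] at hx
  push_cast at hx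
  set z := (a : QBar) * x ^ 2 + (b : QBar) * x
  have h4 : A.valuation (4 * (x ^ 3 + z)) = 1 := by
    rw [show 4 * (x ^ 3 + z) = -((4 * c + 1 : ℤ) : QBar) by push_cast; linear_combination hx,
      Valuation.map_neg]
    exact valuation_intCast_one Nat.prime_two hA (by omega)
  have h4lt : A.valuation (4 : QBar) < 1 := A.mem_nonunits_iff.mp (by
    have := (intCast_mem_nonunits_iff hA Nat.prime_two 4).mpr (by norm_num)
    simpa using this)
  have hint : ∀ n : ℤ, A.valuation (n : QBar) ≤ 1 := fun n =>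
    (A.valuation_le_one_iff _).mpr (intCast_mem A n)
  have hx1 : 1 < A.valuation x := by
    by_contra h
    rw [not_lt] at h
    have hxA : x ∈ A := (A.valuation_le_one_iff _).mp h
    have hz : A.valuation (x ^ 3 + z) ≤ 1 := (A.valuation_le_one_iff _).mpr
      (add_mem (pow_mem hxA 3) (add_mem (mul_mem (intCast_mem A a) (pow_mem hxA 2))
        (mul_mem (intCast_mem A b) hxA)))
    rw [map_mul] at h4
    exact absurd h4 (mul_lt_one_of_lt_of_le h4lt hz).ne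
  have hzlt : A.valuation z < A.valuation (x ^ 3) := by
    rw [map_pow]
    refine lt_of_le_of_lt ((A.valuation).map_add_le (g := A.valuation x ^ 2) ?_ ?_)
      (pow_lt_pow_right₀ hx1 (by norm_num))
    · rw [map_mul, map_pow]
      exact mul_le_of_le_one_left' (hint a)
    · rw [map_mul]
      exact (mul_le_of_le_one_left' (hint b)).trans (le_self_pow₀ hx1.le two_ne_zero)
  rw [map_mul, (A.valuation).map_add_eq_of_lt_left hzlt] at h4
  have hval : A.valuation ((2 * x ^ 2) ^ 3 * ((2 : ℕ) : QBar)) = 1 := by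
    rw [show (2 * x ^ 2) ^ 3 * ((2 : ℕ) : QBar) = (4 * x ^ 3) ^ 2 by push_cast; ring, map_pow,
      map_mul, h4, one_pow]
  have h := le_natCard_image_inertia (r2 hΔ) L hLr Nat.prime_two hA
    (y := 2 * x ^ 2) (fun σ hσ => by
      rw [map_mul, map_pow, map_ofNat, (r2_eq_one_iff hΔ σ).1 hσ]) hval
  by_contra hne
  push Not at hne
  obtain ⟨M, hM⟩ : ∃ M, r2 hΔ '' (A.inertiaSubgroupIn ℚ : Set GQ) ⊆ {1, M} := by
    by_cases h1 : ∃ τ ∈ A.inertiaSubgroupIn ℚ, r2 hΔ τ ≠ 1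
    · obtain ⟨τ, hτ, h1⟩ := h1
      refine ⟨r2 hΔ τ, ?_⟩
      rintro _ ⟨τ', hτ', rfl⟩
      by_contra h'
      simp only [Set.mem_insert_iff, Set.mem_singleton_iff, not_or] at h'
      rcases exists_trace_one _ _ (det_r2 hΔ τ) (det_r2 hΔ τ') h1 h'.1 (Ne.symm h'.2) with e | e | e
      · exact hne τ hτ e
      · exact hne τ' hτ' e
      · rw [← map_mul] at e
        exact hne _ (mul_mem hτ hτ') e
    · push Not at h1
      exact ⟨1, fun _ ⟨τ, hτ, e⟩ => Or.inl (e ▸ h1 τ hτ)⟩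
  have h' := h.trans (Nat.card_mono (Set.toFinite _) hM)
  have h2 : Nat.card ({1, M} : Set (M2 (ZMod 2))) ≤ 2 := by
    rw [Nat.card_coe_set_eq]
    exact (Set.ncard_insert_le _ _).trans (by rw [Set.ncard_singleton])
  omega

theorem exists_decG_transposition (hE : IsTwinCurve E) :
    ∃ φ ∈ decG 2, (r2 hΔ φ).trace = 0 ∧ r2 hΔ φ ≠ 1 := by
  obtain ⟨φ, hφ, hres⟩ := exists_frobenius 2
  refine ⟨φ, hφ, transposition_of_cube _ (det_r2 hΔ φ) fun h3 => ?_⟩
  set e := (1 + sqrtDisc hΔ) / 2 with hedef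
  obtain ⟨k, hk⟩ : ∃ k : ℤ, E.Δ = 8 * k + 5 := ⟨E.Δ / 8, by have := hE.Δ_emod_eight; omega⟩
  have hsq : e ^ 2 = e + ((2 * k + 1 : ℤ) : QBar) := by
    have := sqrtDisc_sq hΔ
    rw [hk] at this
    push_cast at this ⊢
    rw [hedef]
    field_simp
    linear_combination this
  have ho : nrm 2 ((2 * k + 1 : ℤ) : QBar) = 1 := by
    rcases Int.natAbs_eq (2 * k + 1) with h | h <;> rw [h] <;>
      simp only [Int.cast_neg, Int.cast_natCast, nrm_neg] <;>
      exact nrm_natCast_eq_one 2 (by omega)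
  have he : nrm 2 e ≤ 1 := by
    by_contra h
    rw [not_le] at h
    have h2 : nrm 2 e ^ 2 ≤ nrm 2 e := by
      rw [← nrm_pow, hsq]
      exact (nrm_add_le 2 _ _).trans (max_le le_rfl (ho.le.trans h.le))
    nlinarith
  have hfix : φ e = e := by
    rw [hedef, map_div₀, map_add, map_one, map_ofNat, (map_sqrtDisc_eq_iff hΔ φ).2 h3]
  have := hres e he
  rw [hfix, hsq, show e - (e + ((2 * k + 1 : ℤ) : QBar)) = -((2 * k + 1 : ℤ) : QBar) by ring,
    nrm_neg, ho] at this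
  exact lt_irrefl _ this

set_option synthInstance.maxSize 2000 in
set_option synthInstance.maxHeartbeats 400000 in
theorem combination_two : ∀ A B : M2 (ZMod 2), A.det = 1 → B.det = 1 → A.trace = 1 →
    B.trace = 0 → B ≠ 1 → ∀ X : M2 (ZMod 2), ∃ a b c d : ZMod 2,
      X = a • 1 + b • A + c • B + d • (A * B) := by decide

theorem conj_ne_one (hE : IsTwinCurve E) : r2 hΔ complexConjugation ≠ 1 := fun h => by
  have h1 := complexEmbedding_complexConjugation (sqrtDisc hΔ)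
  rw [map_sqrtDisc_of_r2 hΔ h] at h1
  have h2 : complexEmbedding (sqrtDisc hΔ) ^ 2 = (E.Δ : ℂ) := by
    rw [← map_pow, sqrtDisc_sq, map_intCast]
  have h3 := congrArg Complex.re h2
  rw [sq, Complex.mul_re, Complex.conj_eq_iff_im.mp h1.symm, Complex.intCast_re] at h3
  have : (E.Δ : ℝ) < 0 := by exact_mod_cast hE.neg
  nlinarith

/-- **The residual hypotheses.** -/
theorem isResidualTwo (hE : IsTwinCurve E) :
    Select.IsResidualTwo (r2 hΔ) E.conductorLevel := by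
  have hA := Fermat.Agent.CFT.Local.padicPlace_liesOverPrime 2
  obtain ⟨τ, hτ, hτt⟩ := exists_inertia_trace_one hΔ hE hA
  obtain ⟨φ, hφ, hφt, hφ1⟩ := exists_decG_transposition hΔ hE
  have hgood : ∀ v : ℕ, v.Prime → ¬ v ∣ 2 * E.conductorLevel → E.IsGoodPrimeFor v ∧ v ≠ 2 :=
    fun v hv h => ⟨fun hd => h (dvd_mul_of_dvd_right
      ((E.prime_dvd_conductorLevel_iff hΔ hv).2 hd) 2), by rintro rfl; exact h (dvd_mul_right 2 _)⟩
  have hne2 : ∀ v : ℕ, v ∣ E.conductorLevel → v ≠ 2 := fun v h e =>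
    Nat.not_even_iff_odd.2 hE.odd_conductorLevel (even_iff_two_dvd.2 (e ▸ h))
  refine ⟨Local.isSupersingularTwo_of_image (r2_finite hΔ) ⟨τ, inG_le_decG 2 hτ, hτt⟩
    ⟨φ, hφ, hφt, hφ1⟩ ⟨τ, hτ, fun h => absurd (show Matrix.trace (1 : M2 (ZMod 2)) = 1 from h ▸ hτt) (by decide)⟩, ?_, conj_ne_one hΔ hE,
    hE.odd_conductorLevel, hE.one_lt_conductorLevel, fun v hv hd A hA σ hσ => ?_,
    fun v hv hd A hA => ramified hΔ hE hv ((E.prime_dvd_conductorLevel_iff hΔ hv).1 hd) hA,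
    fun v hv hd A hA σ hσ => r2_sq hΔ hv (hne2 v hd) hE.semistable hA hσ⟩
  · refine eq_top_iff.2 fun X _ => ?_
    obtain ⟨a, b, c, d, rfl⟩ :=
      combination_two _ _ (det_r2 hΔ τ) (det_r2 hΔ φ) hτt hφt hφ1 X
    have hm : ∀ σ : GQ, r2 hΔ σ ∈ Submodule.span (ZMod 2) (Set.range (r2 hΔ)) :=
      fun σ => Submodule.subset_span ⟨σ, rfl⟩
    refine add_mem (add_mem (add_mem (Submodule.smul_mem _ a ?_) (Submodule.smul_mem _ b (hm τ)))
      (Submodule.smul_mem _ c (hm φ))) (Submodule.smul_mem _ d ?_)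
    · rw [← map_one (r2 hΔ)]
      exact hm 1
    · rw [← map_mul]
      exact hm _
  · show mapM PadicInt.toZMod (R2 hΔ) σ = 1
    ext i j
    rw [mapM_apply, R2_eq_one_of_unramified hΔ hv (hgood v hv hd).1 (hgood v hv hd).2 hA hσ]
    by_cases hij : i = j <;> simp [Matrix.one_apply, hij]

end Fermat.Agent.RT.Two.Curve
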