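import Fermat.Agent.RT.Two.Curve.Residual
import Fermat.Agent.EC.Rep.Local.Flat
import Fermat.Agent.GaloisReps.PadicHom
import Fermat.Agent.GaloisReps.Flat

/-!
# The two-adic representation of a twin curve over a coefficient ring

The matrices on the Tate module at two, pushed into a complete discrete valuation ring of residue
characteristic two; flatness at two comes from the Galois orders on the torsion.
-/

set_option autoImplicit false
set_option linter.style.haveILetI false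

open WeierstrassCurve IsLocalRing Fermat.Agent.Deform Fermat.Agent.Arith Fermat.Agent.EC.Rep
open Fermat.Agent.FiniteFlat

noncomputable section

namespace Fermat.Agent.RT.Two.Curve

variable {E : WeierstrassCurve ℤ} (hΔ : E.Δ ≠ 0)
variable {O : Type} [CommRing O] [IsLocalRing O]

theorem isLocalHom_of_two_mem (ι : ℤ_[2] →+* O) (h2 : (2 : O) ∈ maximalIdeal O) :
    IsLocalHom ι := by
  refine ⟨fun x hx => ?_⟩
  by_contra hnu
  have : x ∈ maximalIdeal ℤ_[2] := hnu
  rw [PadicInt.maximalIdeal_eq_span_p, Ideal.mem_span_singleton] at this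
  obtain ⟨y, rfl⟩ := this
  refine ((IsLocalRing.mem_maximalIdeal _).1 ?_) hx
  rw [map_mul, map_natCast]
  exact Ideal.mul_mem_right _ _ (by simpa using h2)

/-- The representation over a coefficient ring. -/
def rho (ι : ℤ_[2] →+* O) (h2 : (2 : O) ∈ maximalIdeal O) : GaloisRepAdic O :=
  toRep (mapM ι (R2 hΔ))
    ((isCont_matOf (tateRep E 2 hΔ) (tateB hΔ)).map ι (isLocalHom_of_two_mem ι h2))

variable (ι : ℤ_[2] →+* O) (h2 : (2 : O) ∈ maximalIdeal O)

theorem rho_trace (σ : GQ) : (rho hΔ ι h2).trace σ = ι (R2 hΔ σ).trace := by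
  refine Eq.trans ?_ (AddMonoidHom.map_trace ι.toAddMonoidHom (R2 hΔ σ)).symm
  show LinearMap.trace O (Fin 2 → O) (Matrix.toLinAlgEquiv' (mapM ι (R2 hΔ) σ)) = _
  exact (Matrix.trace_toLin'_eq _).trans rfl

theorem rho_det (σ : GQ) : LinearMap.det ((rho hΔ ι h2).ρ σ) = ι (R2 hΔ σ).det := by
  refine Eq.trans ?_ (ι.map_det (R2 hΔ σ)).symm
  exact LinearMap.det_toLin' _

theorem rho_isUnramifiedAt {v : ℕ} (hv : v.Prime) (hgood : E.IsGoodPrimeFor v) (hv2 : v ≠ 2) :
    (rho hΔ ι h2).IsUnramifiedAt v := fun A hA σ hσ => by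
  show Matrix.toLinAlgEquiv' (ι.mapMatrix (R2 hΔ σ)) = 1
  rw [R2_eq_one_of_unramified hΔ hv hgood hv2 hA hσ, map_one, map_one]

/-- The image of a vector of the Tate module. -/
def vecOf (v : (tateRep E 2 hΔ).V) : Fin 2 → O :=
  ![ι (v : ℤ_[2] × ℤ_[2]).1, ι (v : ℤ_[2] × ℤ_[2]).2]

theorem vecOf_rho (σ : GQ) (v : (tateRep E 2 hΔ).V) :
    vecOf hΔ ι ((tateRep E 2 hΔ).ρ σ v) = (rho hΔ ι h2).ρ σ (vecOf hΔ ι v) := by
  have h := LinearMap.toMatrix_mulVec_repr (tateB hΔ) (tateB hΔ) ((tateRep E 2 hΔ).ρ σ) v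
  have e : ∀ i, vecOf hΔ ι ((tateRep E 2 hΔ).ρ σ v) i =
      ι ((tateB hΔ).repr ((tateRep E 2 hΔ).ρ σ v) i) := by
    intro i; fin_cases i <;> rfl
  have e' : ∀ i, vecOf hΔ ι v i = ι ((tateB hΔ).repr v i) := by
    intro i; fin_cases i <;> rfl
  funext i
  show _ = ((mapM ι (R2 hΔ) σ).mulVec (vecOf hΔ ι v)) i
  rw [e, ← h]
  simp only [Matrix.mulVec, dotProduct, e', map_sum, map_mul, mapM_apply]
  rfl

theorem rho_isFlatAt (hres : Finite (ResidueField O)) [IsNoetherianRing O]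
    (hgood : E.IsGoodPrimeFor 2) : (rho hΔ ι h2).IsFlatAt 2 := by
  classical
  refine isFlatAt_of_galOrder _ 2 hres fun I hI => ?_
  have := hI
  have := Fintype.ofFinite (O ⧸ I)
  obtain ⟨k, hk⟩ := IsLocalRing.exists_maximalIdeal_pow_le_of_isArtinianRing_quotient I
  have h2k : (2 : O) ^ k ∈ I := hk (Ideal.pow_mem_pow h2 k)
  obtain ⟨OT⟩ := exists_galOrder_torsion_pow (W := E) Nat.prime_two hgood k
  haveI := finite_torsPt (W := E) hΔ (pow_ne_zero k two_ne_zero)
  obtain ⟨OP⟩ := GaloisReps.nonempty_galOrder_pi OT (O ⧸ I)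
  have hlift : ∀ x : TorsPt E (2 ^ k), ∃ v, tateRed hΔ k v = Subtype.val x := fun x =>
    exists_tateRed_eq hΔ k (by
      have := (Submodule.mem_torsionBy_iff _ _).mp x.2
      push_cast at this
      exact this)
  choose lift hlift using hlift
  let q : (Fin 2 → O) →ₗ[O] _ := (I • (⊤ : Submodule O (Fin 2 → O))).mkQ
  have hI' : ∀ x : ℤ_[2], x ∈ Ideal.span {((2 : ℕ) : ℤ_[2]) ^ k} → ι x ∈ I := fun x hx => by
    obtain ⟨y, rfl⟩ := Ideal.mem_span_singleton'.1 hx
    rw [map_mul, map_pow, map_natCast, Nat.cast_ofNat]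
    exact I.mul_mem_left _ h2k
  have hkey : ∀ v w : (tateRep E 2 hΔ).V, tateRed hΔ k v = tateRed hΔ k w →
      ∀ c : O, q (c • vecOf hΔ ι v) = q (c • vecOf hΔ ι w) := by
    intro v w hvw c
    obtain ⟨h1, h2'⟩ := (tateRed_eq_zero_iff hΔ k (v - w)).1 (by rw [map_sub, hvw, sub_self])
    refine (Submodule.Quotient.eq _).2 ?_
    show c • vecOf hΔ ι v - c • vecOf hΔ ι w ∈ _
    rw [← smul_sub, pi_eq_sum_univ' (c • (vecOf hΔ ι v - vecOf hΔ ι w))]
    refine Submodule.sum_mem _ fun i _ => Submodule.smul_mem_smul ?_ Submodule.mem_top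
    refine I.mul_mem_left c ?_
    fin_cases i
    · show ι _ - ι _ ∈ I
      rw [← map_sub]
      exact hI' _ h1
    · show ι _ - ι _ ∈ I
      rw [← map_sub]
      exact hI' _ h2'
  have hqadd : ∀ (c : O) (v w : (tateRep E 2 hΔ).V),
      q (c • vecOf hΔ ι (v + w)) = q (c • vecOf hΔ ι v) + q (c • vecOf hΔ ι w) := by
    intro c v w
    rw [← map_add, ← smul_add]
    congr 2
    funext i
    fin_cases i <;> exact map_add ι _ _
  let g : O ⧸ I → (TorsPt E (2 ^ k) →+ _) := fun c =>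
    AddMonoidHom.mk' (fun x => q (c.out • vecOf hΔ ι (lift x))) fun x y => by
      rw [← hqadd]
      exact hkey _ _ (by rw [map_add, hlift, hlift, hlift, Submodule.coe_add]) _
  let π : (O ⧸ I → TorsPt E (2 ^ k)) →+ _ :=
    ∑ c, (g c).comp (Pi.evalAddMonoidHom (fun _ => TorsPt E (2 ^ k)) c)
  have hπ : ∀ f, π f = ∑ c, g c (f c) := fun f => by
    simp [π, AddMonoidHom.finsetSum_apply]
  have hsingle : ∀ (c : O) (v : (tateRep E 2 hΔ).V),
      ∃ f, π f = q (c • vecOf hΔ ι v) := fun c v => by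
    let x : TorsPt E (2 ^ k) := ⟨tateRed hΔ k v, by
      rw [Submodule.mem_torsionBy_iff]; push_cast; exact pow_smul_tateRed hΔ k v⟩
    refine ⟨Pi.single (Ideal.Quotient.mk I c) x, ?_⟩
    rw [hπ, Finset.sum_eq_single (Ideal.Quotient.mk I c)
      (fun d _ hd => by rw [Pi.single_eq_of_ne hd, map_zero])
      (fun h => absurd (Finset.mem_univ _) h), Pi.single_eq_same]
    show q ((Ideal.Quotient.mk I c).out • vecOf hΔ ι (lift x)) = _
    rw [hkey (lift x) v (hlift x)]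
    refine (Submodule.Quotient.eq _).2 ?_
    rw [← sub_smul]
    refine Submodule.smul_mem_smul ?_ Submodule.mem_top
    rw [← Ideal.Quotient.eq, Ideal.Quotient.mk_out]
  refine ⟨_, inferInstance, inferInstance, inferInstance, OP, π, fun w => ?_, fun σ f => ?_⟩
  · obtain ⟨(v : Fin 2 → O), rfl⟩ := Submodule.mkQ_surjective _ w
    show ∃ f, π f = q v
    obtain ⟨f₀, hf₀⟩ := hsingle (v 0) ((1, 0) : ℤ_[2] × ℤ_[2])
    obtain ⟨f₁, hf₁⟩ := hsingle (v 1) ((0, 1) : ℤ_[2] × ℤ_[2])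
    refine ⟨f₀ + f₁, ?_⟩
    rw [map_add, hf₀, hf₁, ← map_add]
    refine congrArg q ?_
    funext i
    show v 0 * ![ι 1, ι 0] i + v 1 * ![ι 0, ι 1] i = v i
    fin_cases i <;> simp
  · let Lσ : ((Fin 2 → O) ⧸ (I • (⊤ : Submodule O (Fin 2 → O)))) →ₗ[O] _ :=
      (rho hΔ ι h2).levelAction I σ
    refine ((hπ (σ • f)).trans ?_).trans (congrArg Lσ (hπ f)).symm
    rw [map_sum]
    refine Finset.sum_congr rfl fun c _ => ?_
    show q (c.out • vecOf hΔ ι (lift (σ • f c))) =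
      (rho hΔ ι h2).levelAction I σ (q (c.out • vecOf hΔ ι (lift (f c))))
    rw [hkey (lift (σ • f c)) ((tateRep E 2 hΔ).ρ σ (lift (f c)))
      (by rw [hlift, red_tateRep, hlift]; rfl), vecOf_rho hΔ ι h2]
    show _ = q ((rho hΔ ι h2).ρ σ (c.out • vecOf hΔ ι (lift (f c))))
    exact congrArg q (((rho hΔ ι h2).ρ σ).map_smul c.out (vecOf hΔ ι (lift (f c)))).symm

end Fermat.Agent.RT.Two.Curve
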